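import Fermat.Agent.RobinsonArithmetic.Models

/-!
# Peano arithmetic

Robinson's axioms with induction for every formula with parameters. In the models addition is
commutative and cancellative, the order is linear and there is division with remainder; a property
given by a formula which holds at every numeral holds at a nonstandard element, if there is one.
-/

set_option autoImplicit false

namespace FA.Tennenbaum

open FirstOrder Language ArithmeticTruth RobinsonArithmetic

/-- Induction for a formula with parameters. -/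
noncomputable def inductionAxiom {n : ℕ} (φ : arithLanguage.Formula (Fin n ⊕ Fin 1)) :
    arithLanguage.Sentence :=
  let atX : arithLanguage.Formula ((Empty ⊕ Fin n) ⊕ Fin 1) :=
    BoundedFormula.subst φ (Sum.elim (fun i => .var (.inl (.inr i))) fun _ => .var (.inr 0))
  let atSucc : arithLanguage.Formula ((Empty ⊕ Fin n) ⊕ Fin 1) :=
    BoundedFormula.subst φ
      (Sum.elim (fun i => .var (.inl (.inr i))) fun _ => addTerm (.var (.inr 0)) oneTerm)
  let atZero : arithLanguage.Formula (Empty ⊕ Fin n) :=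
    BoundedFormula.subst φ (Sum.elim (fun i => .var (.inr i)) fun _ => zeroTerm)
  Formula.iAlls (Fin n)
    (atZero.imp ((Formula.iAlls (Fin 1) (atX.imp atSucc)).imp (Formula.iAlls (Fin 1) atX)))

/-- **Peano arithmetic.** -/
def peanoArithmetic : arithLanguage.Theory :=
  robinsonQ ∪ {ψ | ∃ (n : ℕ) (φ : arithLanguage.Formula (Fin n ⊕ Fin 1)), ψ = inductionAxiom φ}

/-- The meaning of the axioms. -/
structure IsPeanoModel (M : Type*) [arithLanguage.Structure M] : Prop where
  robinson : IsRobinsonModel M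
  induction : ∀ {n : ℕ} (φ : arithLanguage.Formula (Fin n ⊕ Fin 1)) (p : Fin n → M),
    φ.Realize (Sum.elim p fun _ => zeroM) →
      (∀ x, φ.Realize (Sum.elim p fun _ => x) →
        φ.Realize (Sum.elim p fun _ => addM x oneM)) → ∀ x, φ.Realize (Sum.elim p fun _ => x)

variable {M : Type*} [arithLanguage.Structure M]

theorem realize_inductionAxiom {n : ℕ} (φ : arithLanguage.Formula (Fin n ⊕ Fin 1)) :
    M ⊨ inductionAxiom φ ↔ ∀ p : Fin n → M, φ.Realize (Sum.elim p fun _ => zeroM) →
      (∀ x, φ.Realize (Sum.elim p fun _ => x) →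
        φ.Realize (Sum.elim p fun _ => addM x oneM)) →
      ∀ x, φ.Realize (Sum.elim p fun _ => x) := by
  have key : ∀ {γ : Type} (a : Fin n → arithLanguage.Term γ) (b : arithLanguage.Term γ)
      (v : γ → M), Formula.Realize (BoundedFormula.subst φ (Sum.elim a fun _ => b)) v ↔
        φ.Realize (Sum.elim (fun i => (a i).realize v) fun _ => b.realize v) := fun a b v => by
    refine BoundedFormula.realize_subst.trans (iff_of_eq (congrArg (φ.Realize ·) ?_))
    funext i
    cases i <;> rfl
  simp only [inductionAxiom, Sentence.Realize, Formula.realize_iAlls, Formula.realize_imp, key,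
    Term.realize_var, Sum.elim_inl, Sum.elim_inr, realizeM_zeroTerm, realizeM_addTerm,
    realizeM_oneTerm]
  exact forall_congr' fun p => imp_congr Iff.rfl
    ⟨fun H hs x => H (fun w => hs (w 0)) fun _ => x, fun H hs w => H (fun x => hs fun _ => x) (w 0)⟩

theorem model_peanoArithmetic_iff : M ⊨ peanoArithmetic ↔ IsPeanoModel M := by
  rw [peanoArithmetic, Theory.model_union_iff, model_robinsonQ_iff]
  constructor
  · rintro ⟨h, hi⟩
    exact ⟨h, fun {n} φ => (realize_inductionAxiom φ).1
      (hi.realize_of_mem _ ⟨n, φ, rfl⟩)⟩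
  · rintro ⟨h, hi⟩
    refine ⟨h, (Theory.model_iff _).2 ?_⟩
    rintro ψ ⟨n, φ, rfl⟩
    exact (realize_inductionAxiom φ).2 fun p => hi φ p

theorem nat_models_peanoArithmetic : ℕ ⊨ peanoArithmetic :=
  model_peanoArithmetic_iff.2 ⟨isRobinsonModel_nat, fun _ _ h0 hs x => Nat.recOn x h0 hs⟩

theorem exists_pi_one {α : Type*} {P : (Fin 1 → α) → Prop} :
    (∃ w, P w) ↔ ∃ x, P fun _ => x :=
  ⟨fun ⟨w, hw⟩ => ⟨w 0, by convert hw⟩,
    fun ⟨x, hx⟩ => ⟨_, hx⟩⟩

namespace IsPeanoModel

variable (h : IsPeanoModel M)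
include h

/-- Induction for a property given by a formula. -/
theorem ind {n : ℕ} (φ : arithLanguage.Formula (Fin n ⊕ Fin 1)) (p : Fin n → M) {P : M → Prop}
    (hP : ∀ x, φ.Realize (Sum.elim p fun _ => x) ↔ P x) (h0 : P zeroM)
    (hs : ∀ x, P x → P (addM x oneM)) (x : M) : P x :=
  (hP x).1 (h.induction φ p ((hP _).2 h0) (fun y hy => (hP _).2 (hs y ((hP y).1 hy))) x)

/-- **Overspill.** A property given by a formula which holds at all numerals holds at a nonstandard
element, if there is one. -/
theorem overspill {n : ℕ} (φ : arithLanguage.Formula (Fin n ⊕ Fin 1)) (p : Fin n → M)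
    {P : M → Prop} (hP : ∀ x, φ.Realize (Sum.elim p fun _ => x) ↔ P x) (hnum : ∀ k, P (numM k))
    (hns : ∃ a : M, ∀ k, a ≠ numM k) : ∃ b, P b ∧ ∀ k, b ≠ numM k := by
  by_contra! hall
  obtain ⟨a, ha⟩ := hns
  obtain ⟨k, hk⟩ := hall a (h.ind φ p hP (hnum 0) (fun x hx => by
    obtain ⟨k, rfl⟩ := hall x hx
    exact hnum (k + 1)) a)
  exact ha k hk

theorem zero_addM (x : M) : addM zeroM x = x := by
  refine h.ind (Term.equal (addTerm zeroTerm (.var (.inr 0))) (.var (.inr 0))) ![]
    (P := fun z => addM zeroM z = z) (fun z => ?_) (h.robinson.add_zeroM _) (fun z e => ?_) x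
  · simp [realizeM_addTerm, realizeM_zeroTerm]
  · rw [h.robinson.add_succM, e]

theorem succ_addM (x y : M) : addM (addM x oneM) y = addM (addM x y) oneM := by
  refine h.ind (Term.equal (addTerm (addTerm (.var (.inl 0)) oneTerm) (.var (.inr 0)))
    (addTerm (addTerm (.var (.inl 0)) (.var (.inr 0))) oneTerm)) ![x]
    (P := fun z => addM (addM x oneM) z = addM (addM x z) oneM) (fun z => ?_) ?_ (fun z e => ?_) y
  · simp [realizeM_addTerm, realizeM_oneTerm]
  · rw [h.robinson.add_zeroM, h.robinson.add_zeroM]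
  · rw [h.robinson.add_succM, h.robinson.add_succM, e]

theorem addM_comm (x y : M) : addM x y = addM y x := by
  refine h.ind (Term.equal (addTerm (.var (.inl 0)) (.var (.inr 0)))
    (addTerm (.var (.inr 0)) (.var (.inl 0)))) ![x] (P := fun z => addM x z = addM z x)
    (fun z => ?_) ?_ (fun z e => ?_) y
  · simp [realizeM_addTerm]
  · rw [h.robinson.add_zeroM, h.zero_addM]
  · rw [h.robinson.add_succM, e, h.succ_addM]

theorem addM_assoc (x y z : M) : addM (addM x y) z = addM x (addM y z) := by
  refine h.ind (Term.equal (addTerm (addTerm (.var (.inl 0)) (.var (.inl 1))) (.var (.inr 0)))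
    (addTerm (.var (.inl 0)) (addTerm (.var (.inl 1)) (.var (.inr 0))))) ![x, y]
    (P := fun w => addM (addM x y) w = addM x (addM y w)) (fun w => ?_) ?_ (fun w e => ?_) z
  · simp [realizeM_addTerm]
  · rw [h.robinson.add_zeroM, h.robinson.add_zeroM]
  · rw [h.robinson.add_succM, e, h.robinson.add_succM, h.robinson.add_succM]

theorem addM_right_cancel {x y z : M} : addM x z = addM y z → x = y := by
  refine h.ind ((Term.equal (addTerm (.var (.inl 0)) (.var (.inr 0)))
    (addTerm (.var (.inl 1)) (.var (.inr 0)))).imp (Term.equal (.var (.inl 0)) (.var (.inl 1))))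
    ![x, y] (P := fun w => addM x w = addM y w → x = y) (fun w => ?_) ?_ (fun w hw => ?_) z
  · simp [realizeM_addTerm]
  · rw [h.robinson.add_zeroM, h.robinson.add_zeroM]
    exact id
  · intro e
    rw [h.robinson.add_succM, h.robinson.add_succM] at e
    exact hw (h.robinson.succ_inj _ _ e)

theorem mulM_addM (a b d : M) : mulM (addM a b) d = addM (mulM a d) (mulM b d) := by
  refine h.ind (Term.equal (mulTerm (addTerm (.var (.inl 0)) (.var (.inl 1))) (.var (.inr 0)))
    (addTerm (mulTerm (.var (.inl 0)) (.var (.inr 0))) (mulTerm (.var (.inl 1)) (.var (.inr 0)))))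
    ![a, b] (P := fun z => mulM (addM a b) z = addM (mulM a z) (mulM b z)) (fun z => ?_) ?_
    (fun z e => ?_) d
  · simp [realizeM_addTerm, realizeM_mulTerm]
  · rw [h.robinson.mul_zeroM, h.robinson.mul_zeroM, h.robinson.mul_zeroM, h.zero_addM]
  · have : Std.Associative (addM : M → M → M) := ⟨h.addM_assoc⟩
    have : Std.Commutative (addM : M → M → M) := ⟨h.addM_comm⟩
    rw [h.robinson.mul_succM, h.robinson.mul_succM, h.robinson.mul_succM, e]
    ac_rfl

theorem one_mulM (x : M) : mulM oneM x = x := by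
  refine h.ind (Term.equal (mulTerm oneTerm (.var (.inr 0))) (.var (.inr 0))) ![]
    (P := fun z => mulM oneM z = z) (fun z => ?_) (h.robinson.mul_zeroM _) (fun z e => ?_) x
  · simp [realizeM_mulTerm, realizeM_oneTerm]
  · rw [h.robinson.mul_succM, e]

theorem le_totalM (x y : M) : LeM x y ∨ LeM y x := by
  refine h.ind ((Formula.iExs (Fin 1)
      (Term.equal (addTerm (.var (.inr 0)) (.var (.inl (.inr 0)))) (.var (.inl (.inl 0))))) ⊔
    Formula.iExs (Fin 1)
      (Term.equal (addTerm (.var (.inr 0)) (.var (.inl (.inl 0)))) (.var (.inl (.inr 0))))) ![y]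
    (P := fun z => LeM z y ∨ LeM y z) (fun z => ?_) ?_ (fun z hz => ?_) x
  · simp [LeM, realizeM_addTerm, exists_pi_one]
  · exact .inl ⟨y, h.robinson.add_zeroM y⟩
  · rcases hz with ⟨w, e⟩ | ⟨w, e⟩
    · by_cases hw : w = zeroM
      · rw [hw, h.zero_addM] at e
        exact .inr ⟨oneM, by rw [e, h.addM_comm]⟩
      · obtain ⟨w', rfl⟩ := h.robinson.pred w hw
        exact .inl ⟨w', by rw [← e, h.succ_addM, h.robinson.add_succM]⟩
    · exact .inr ⟨addM w oneM, by rw [h.succ_addM, e]⟩

/-- An element is equal to another, or one of them is smaller. -/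
theorem trichotomyM (x y : M) :
    x = y ∨ (∃ w, y = addM (addM w oneM) x) ∨ ∃ w, x = addM (addM w oneM) y := by
  rcases h.le_totalM x y with ⟨w, e⟩ | ⟨w, e⟩ <;> by_cases hw : w = zeroM
  · exact .inl (by rw [← e, hw, h.zero_addM])
  · obtain ⟨w', rfl⟩ := h.robinson.pred w hw
    exact .inr (.inl ⟨w', e.symm⟩)
  · exact .inl (by rw [← e, hw, h.zero_addM])
  · obtain ⟨w', rfl⟩ := h.robinson.pred w hw
    exact .inr (.inr ⟨w', e.symm⟩)

/-- Division with remainder. -/
theorem exists_divM {d : M} (hd : d ≠ zeroM) (c : M) :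
    ∃ y r, addM (mulM y d) r = c ∧ ∃ u, addM u (addM r oneM) = d := by
  refine h.ind (Formula.iExs (Fin 3)
      (Term.equal (addTerm (mulTerm (.var (.inr 0)) (.var (.inl (.inl 0)))) (.var (.inr 1)))
          (.var (.inl (.inr 0))) ⊓
        Term.equal (addTerm (.var (.inr 2)) (addTerm (.var (.inr 1)) oneTerm))
          (.var (.inl (.inl 0))))) ![d]
    (P := fun z => ∃ y r, addM (mulM y d) r = z ∧ ∃ u, addM u (addM r oneM) = d)
    (fun z => ?_) ?_ (fun z hz => ?_) c
  · simp [realizeM_addTerm, realizeM_mulTerm, realizeM_oneTerm]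
    exact ⟨fun ⟨t, e, e'⟩ => ⟨t 0, t 1, e, t 2, e'⟩,
      fun ⟨y, r, e, u, e'⟩ => ⟨![y, r, u], by simpa using e, by simpa using e'⟩⟩
  · obtain ⟨d', rfl⟩ := h.robinson.pred d hd
    have hz : ∀ z : M, mulM zeroM z = zeroM := fun z => by
      refine h.ind (Term.equal (mulTerm zeroTerm (.var (.inr 0))) zeroTerm) ![]
        (P := fun z => mulM zeroM z = zeroM) (fun z => ?_) (h.robinson.mul_zeroM _)
        (fun z e => ?_) z
      · simp [realizeM_mulTerm, realizeM_zeroTerm]
      · rw [h.robinson.mul_succM, e, h.robinson.add_zeroM]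
    exact ⟨zeroM, zeroM, by rw [hz, h.robinson.add_zeroM], d', by rw [h.zero_addM]⟩
  · obtain ⟨y, r, e, u, e'⟩ := hz
    by_cases hu : u = zeroM
    · rw [hu, h.zero_addM] at e'
      obtain ⟨d', rfl⟩ := h.robinson.pred d hd
      refine ⟨addM y oneM, zeroM, ?_, d', by rw [h.zero_addM]⟩
      rw [h.robinson.add_zeroM, h.mulM_addM, h.one_mulM, ← e, h.addM_assoc, e']
    · obtain ⟨u', rfl⟩ := h.robinson.pred u hu
      refine ⟨y, addM r oneM, by rw [h.robinson.add_succM, e], u', ?_⟩
      rw [← e', h.robinson.add_succM, h.succ_addM u']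

/-- The remainder of a multiple is zero. -/
theorem rem_eq_zeroM {y y' r u d : M} (hu : addM u (addM r oneM) = d)
    (e : addM (mulM y d) r = mulM y' d) : r = zeroM := by
  rcases h.trichotomyM y y' with rfl | ⟨w, rfl⟩ | ⟨w, rfl⟩
  · exact h.addM_right_cancel (z := mulM y d) (by rw [h.zero_addM, h.addM_comm, e])
  · rw [h.mulM_addM, h.mulM_addM, h.one_mulM, h.addM_comm (mulM y d)] at e
    have e₁ : r = addM (mulM w d) (addM u (addM r oneM)) := (h.addM_right_cancel e).trans
      (by rw [hu])
    have : addM (addM (mulM w d) u) oneM = zeroM := by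
      refine h.addM_right_cancel (z := r) ?_
      rw [h.zero_addM]
      conv_rhs => rw [e₁]
      have : Std.Associative (addM : M → M → M) := ⟨h.addM_assoc⟩
      have : Std.Commutative (addM : M → M → M) := ⟨h.addM_comm⟩
      ac_rfl
    exact absurd this (h.robinson.succ_ne _)
  · rw [h.mulM_addM, h.mulM_addM, h.one_mulM] at e
    have : addM (addM (addM (mulM w d) u) (addM r r)) oneM = zeroM := by
      refine h.addM_right_cancel (z := mulM y' d) ?_
      rw [h.zero_addM]
      conv_rhs => rw [← e]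
      have : Std.Associative (addM : M → M → M) := ⟨h.addM_assoc⟩
      have : Std.Commutative (addM : M → M → M) := ⟨h.addM_comm⟩
      subst hu
      ac_rfl
    exact absurd this (h.robinson.succ_ne _)

end IsPeanoModel

end FA.Tennenbaum
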