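import Fermat.Agent.RobinsonArithmetic.Separation
import Fermat.Agent.Tennenbaum.Peano

/-!
# Coding by divisibility in a nonstandard model

With a nonstandard element, the standard part of a definable set is the set of the `i` with
`(i + 1) * m + 1` dividing some `c`. If addition and multiplication are computable, so is that set.
-/

set_option autoImplicit false

namespace FA.Tennenbaum

open FirstOrder Language ArithmeticTruth RobinsonArithmetic

/-- The numbers `(i + 1) * m + 1` separate any set of small numbers. -/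
theorem exists_code_nat (k : ℕ) (S : Set ℕ) :
    ∃ m c : ℕ, ∀ i < k, i ∈ S ↔ (i + 1) * m + 1 ∣ c := by
  classical
  refine ⟨k.factorial,
    ∏ j ∈ (Finset.range k).filter (· ∈ S), ((j + 1) * k.factorial + 1), fun i hi => ?_⟩
  refine ⟨fun hS => Finset.dvd_prod_of_mem _ (by simp [hi, hS]), fun hd => ?_⟩
  by_contra hS
  have hco : Nat.Coprime ((i + 1) * k.factorial + 1)
      (∏ j ∈ (Finset.range k).filter (· ∈ S), ((j + 1) * k.factorial + 1)) := by
    refine Nat.Coprime.prod_right fun j hj => Nat.coprime_of_dvd fun p hp h₁ h₂ => ?_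
    simp only [Finset.mem_filter, Finset.mem_range] at hj
    have hne : i ≠ j := fun h => hS (h ▸ hj.2)
    have hpm : ¬p ∣ k.factorial := fun h =>
      hp.not_dvd_one ((Nat.dvd_add_right (dvd_mul_of_dvd_right h _)).1 h₁)
    obtain ⟨a, ha, hak, hdvd⟩ : ∃ a, 0 < a ∧ a ≤ k ∧ p ∣ a * k.factorial := by
      rcases lt_or_gt_of_ne hne with h | h
      · refine ⟨j - i, by omega, by omega, ?_⟩
        have := Nat.dvd_sub h₂ h₁
        rwa [Nat.add_sub_add_right, ← Nat.sub_mul, Nat.add_sub_add_right] at this
      · refine ⟨i - j, by omega, by omega, ?_⟩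
        have := Nat.dvd_sub h₁ h₂
        rwa [Nat.add_sub_add_right, ← Nat.sub_mul, Nat.add_sub_add_right] at this
    exact hpm (((hp.dvd_mul).1 hdvd).elim
      (fun h => h.trans (Nat.dvd_factorial ha hak)) id)
  have h1 := Nat.Coprime.eq_one_of_dvd hco hd
  exact absurd h1 (by simp [Nat.factorial_ne_zero])

variable {M : Type} [arithLanguage.Structure M]

/-- The modulus of `i`. -/
def modM (m i : M) : M :=
  addM (mulM (addM i oneM) m) oneM

/-- Below `b` the set of `φ` is coded by `m` and `c`. -/
noncomputable def codeFormula (φ : arithLanguage.BoundedFormula Empty 1) :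
    arithLanguage.Formula (Fin 0 ⊕ Fin 1) :=
  Formula.iExs (Fin 2) (Formula.iAlls (Fin 1)
    ((Formula.iExs (Fin 1) (Term.equal (addTerm (.var (.inr 0))
        (addTerm (.var (.inl (.inr 0))) oneTerm)) (.var (.inl (.inl (.inl (.inr 0))))))).imp
      ((φ.toFormula.relabel (Sum.elim Empty.elim fun _ => Sum.inr 0)).iff
        (Formula.iExs (Fin 1) (Term.equal (mulTerm (.var (.inr 0))
          (addTerm (mulTerm (addTerm (.var (.inl (.inr 0))) oneTerm) (.var (.inl (.inl (.inr 0)))))
            oneTerm)) (.var (.inl (.inl (.inr 1)))))))))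

/-- What the formula says. -/
def Codes (φ : arithLanguage.BoundedFormula Empty 1) (b : M) : Prop :=
  ∃ m c : M, ∀ i : M, LeM (addM i oneM) b →
    (φ.Realize (default : Empty → M) ![i] ↔ ∃ y, mulM y (modM m i) = c)

theorem realize_codeFormula (φ : arithLanguage.BoundedFormula Empty 1) (b : M) :
    (codeFormula φ).Realize (Sum.elim ![] fun _ => b) ↔ Codes φ b := by
  have e : ∀ (v : (Fin 0 ⊕ Fin 1) ⊕ Fin 2 → M) (i : Fin 1 → M),
      (φ.toFormula.relabel (Sum.elim Empty.elim fun _ => Sum.inr 0)).Realize (Sum.elim v i) ↔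
        φ.Realize (default : Empty → M) ![i 0] := fun v i => by
    rw [Formula.realize_relabel, BoundedFormula.realize_toFormula]
    refine iff_of_eq (congrArg₂ _ (Subsingleton.elim _ _) (funext fun j => ?_))
    rw [Fin.fin_one_eq_zero j]
    rfl
  simp only [codeFormula, Codes, LeM, modM, Formula.realize_iExs, Formula.realize_iAlls,
    Formula.realize_imp, Formula.realize_iff, Formula.realize_equal, realizeM_addTerm,
    realizeM_mulTerm, realizeM_oneTerm, Term.realize_var, Sum.elim_inl, Sum.elim_inr, e,
    exists_pi_one]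
  exact ⟨fun ⟨t, ht⟩ => ⟨t 0, t 1, fun i => ht fun _ => i⟩,
    fun ⟨m, c, hc⟩ => ⟨![m, c], fun i => hc (i 0)⟩⟩

theorem dvd_numM_iff (h : IsRobinsonModel M) (d c : ℕ) :
    (∃ y : M, mulM y (numM (d + 1)) = numM c) ↔ d + 1 ∣ c := by
  refine ⟨fun ⟨y, e⟩ => ?_, fun ⟨k, hk⟩ => ⟨numM k, by rw [h.mulM_numM, hk, mul_comm]⟩⟩
  obtain ⟨k, -, rfl⟩ := h.exists_of_le_numM (y := y) (n := c)
    ⟨mulM y (numM d), (h.mul_succM _ _).symm.trans e⟩
  rw [h.mulM_numM] at e
  exact ⟨k, by rw [← h.numM_injective e, mul_comm]⟩

theorem modM_numM (h : IsRobinsonModel M) (m i : ℕ) :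
    modM (numM m : M) (numM i) = numM ((i + 1) * m + 1) := by
  change addM (mulM (numM (i + 1)) (numM m)) oneM = _
  rw [h.mulM_numM]
  rfl

/-- Every numeral bounds a coded part. -/
theorem codes_numM (h : IsRobinsonModel M) (φ : arithLanguage.BoundedFormula Empty 1) (k : ℕ) :
    Codes φ (numM k : M) := by
  obtain ⟨m, c, hc⟩ := exists_code_nat k {i | φ.Realize (default : Empty → M) ![numM i]}
  refine ⟨numM m, numM c, fun i hi => ?_⟩
  obtain ⟨j, hj, e⟩ := h.exists_of_le_numM hi
  cases j with
  | zero => exact absurd e (h.succ_ne _)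
  | succ j =>
    obtain rfl := h.succ_inj _ _ e
    rw [modM_numM h, dvd_numM_iff h]
    exact hc j (by omega)

/-- **Standard systems.** With a nonstandard element every definable set of standard numbers is
given by divisibility. -/
theorem exists_codeM (h : IsPeanoModel M) (φ : arithLanguage.BoundedFormula Empty 1)
    (hns : ∃ a : M, ∀ k, a ≠ numM k) : ∃ m c : M, ∀ n : ℕ,
      φ.Realize (default : Empty → M) ![numM n] ↔ ∃ y, mulM y (modM m (numM n)) = c := by
  obtain ⟨b, ⟨m, c, hc⟩, hb⟩ := h.overspill (codeFormula φ) ![] (realize_codeFormula φ)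
    (codes_numM h.robinson φ) hns
  refine ⟨m, c, fun n => hc _ ?_⟩
  rcases h.robinson.le_or_succ_le n b with hle | hlt
  · obtain ⟨j, -, rfl⟩ := h.robinson.exists_of_le_numM hle
    exact absurd rfl (hb j)
  · exact hlt

/-- With computable operations divisibility by the moduli is computable. -/
theorem exists_computable_dvd (h : IsPeanoModel M) (e : ℕ ≃ M)
    (hadd : Computable₂ fun a b => e.symm (addM (e a) (e b)))
    (hmul : Computable₂ fun a b => e.symm (mulM (e a) (e b))) (m c : M) :
    ∃ f : ℕ → Bool, Computable f ∧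
      ∀ n, f n = true ↔ ∃ y, mulM y (modM m (numM n)) = c := by
  let add := fun a b => e.symm (addM (e a) (e b))
  let mul := fun a b => e.symm (mulM (e a) (e b))
  let num : ℕ → ℕ := fun n => e.symm (numM n)
  have hnum : Computable num :=
    (Computable.nat_rec (f := id) (g := fun _ => e.symm zeroM)
      (h := fun _ p => add p.2 (e.symm oneM)) Computable.id (Computable.const _)
      (hadd.comp (Computable.snd.comp Computable.snd) (Computable.const _)).to₂).of_eq fun n => by
      induction n with
      | zero => rfl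
      | succ n ih => simp only [id_eq] at ih ⊢; rw [ih]; simp [add, num, numM]
  let dd : ℕ → ℕ := fun n => add (mul (num (n + 1)) (e.symm m)) (e.symm oneM)
  have hdd : Computable dd :=
    hadd.comp (hmul.comp (hnum.comp Computable.succ) (Computable.const _)) (Computable.const _)
  have hd : ∀ n, e (dd n) = modM m (numM n) := fun n => by simp [dd, add, mul, num, modM, numM]
  let test : ℕ → ℕ → Bool := fun n N =>
    decide (add (mul N.unpair.1 (dd n)) N.unpair.2.unpair.1 = e.symm c) &&
      decide (add N.unpair.2.unpair.2 (add N.unpair.2.unpair.1 (e.symm oneM)) = dd n)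
  have cy : Computable fun p : ℕ × ℕ => p.2.unpair.1 :=
    Computable.fst.comp (Computable.unpair.comp Computable.snd)
  have crest : Computable fun p : ℕ × ℕ => p.2.unpair.2.unpair :=
    Computable.unpair.comp (Computable.snd.comp (Computable.unpair.comp Computable.snd))
  have htest : Computable₂ test :=
    (Primrec.and.to_comp.comp
      (Primrec.eq.decide.to_comp.comp
        (hadd.comp (hmul.comp cy (hdd.comp Computable.fst)) (Computable.fst.comp crest))
        (Computable.const _))
      (Primrec.eq.decide.to_comp.comp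
        (hadd.comp (Computable.snd.comp crest)
          (hadd.comp (Computable.fst.comp crest) (Computable.const _)))
        (hdd.comp Computable.fst))).to₂
  have hex : ∀ n, ∃ N, test n N = true := fun n => by
    obtain ⟨y, r, hy, u, hu⟩ := h.exists_divM (d := modM m (numM n)) (h.robinson.succ_ne _) c
    refine ⟨Nat.pair (e.symm y) (Nat.pair (e.symm r) (e.symm u)), ?_⟩
    simp [test, add, mul, hd, hy, hu, Equiv.symm_apply_eq]
  have hfind : Computable fun n => Nat.find (hex n) :=
    (Partrec.rfind htest.partrec₂).of_eq fun n => Part.eq_some_iff.2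
      (Nat.mem_rfind.2 ⟨Part.mem_some_iff.2 (Nat.find_spec (hex n)).symm,
        fun {k} hk => Part.mem_some_iff.2 (by simpa using (Nat.find_min (hex n) hk))⟩)
  refine ⟨fun n => decide ((Nat.find (hex n)).unpair.2.unpair.1 = e.symm zeroM),
    Primrec.eq.decide.to_comp.comp (Computable.fst.comp (Computable.unpair.comp
      (Computable.snd.comp (Computable.unpair.comp hfind)))) (Computable.const _), fun n => ?_⟩
  have hspec := Nat.find_spec (hex n)
  simp only [test, add, mul, Bool.and_eq_true, decide_eq_true_eq, e.symm.apply_eq_iff_eq,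
    Equiv.symm_apply_eq, Equiv.apply_symm_apply, hd] at hspec
  simp only [decide_eq_true_eq, Equiv.eq_symm_apply]
  refine ⟨fun hr => ⟨e (Nat.find (hex n)).unpair.1, ?_⟩, fun ⟨y, hy⟩ => ?_⟩
  · rw [← hspec.1, hr, h.robinson.add_zeroM]
  · exact h.rem_eq_zeroM hspec.2 (hspec.1.trans hy.symm)

/-- **Tennenbaum's argument.** With computable operations every element is a numeral. -/
theorem exists_eq_numM (h : IsPeanoModel M) (hQ : M ⊨ robinsonQ) (e : ℕ ≃ M)
    (hadd : Computable₂ fun a b => e.symm (addM (e a) (e b)))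
    (hmul : Computable₂ fun a b => e.symm (mulM (e a) (e b))) (a : M) : ∃ k, a = numM k := by
  by_contra! ha
  obtain ⟨A, B, hA, hB, hAB, hins⟩ := exists_inseparable
  obtain ⟨φ, hφ⟩ := exists_separating hA hB
  obtain ⟨m, c, hmc⟩ := exists_codeM h φ ⟨a, ha⟩
  obtain ⟨f, hf, hfs⟩ := exists_computable_dvd h e hadd hmul m c
  refine hins ⟨f, hf, fun n hn => (hfs n).2 ((hmc n).1 ?_), fun n hn => Bool.eq_false_iff.2
    fun hn' => ?_⟩
  · exact (h.robinson.realize_instance φ n).1 ((hφ M hQ).1 n hn fun h' => hAB n ⟨hn, h'⟩)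
  · exact (hφ M hQ).2 n hn (fun h' => hAB n ⟨h', hn⟩)
      ((h.robinson.realize_instance φ n).2 ((hmc n).2 ((hfs n).1 hn')))

end FA.Tennenbaum
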